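import Fermat.Agent.S28.ModEqField.Degree
import Fermat.Agent.S28.TowerDefs
import Fermat.Agent.S28.Kummer.Roots

/-!
# S28 / route C (shadow): the chain step for `modularFunctionFieldFullC`

Concrete instance of the abstract setup of `ModEqField.lean` on `LaurentSeries F`
(`ρ d = qExpand F d`, `τ c = Kummer.twist c`, `J = jqModC F`) and the three exported statements
(task S28-C1s), for an arbitrary field `k` (descent from `AlgebraicClosure k`):

* `chain_le_natDegree` : lower bound `p` resp. `p + 1` for the degree of `J(q^(p^(a+1)))` over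
  `k(J(q^d) : d ∣ N)`;
* `chain_exists_monic` : the monic step polynomial of that degree;
* `full_mul_prime_eq` : `k(J(q^d) : d ∣ N p) = k(J(q^d) : d ∣ N)(J(q^(p^(a+1))))`.
-/

set_option autoImplicit false

namespace Fermat.Agent.S28.ModEqField

open ModularCurve Polynomial

noncomputable section

section Concrete

variable (F : Type*) [Field F]

/-- `ρ d : q ↦ q ^ d` (the identity for `d = 0`). -/
def rhoC (d : ℕ) : LaurentSeries F →+* LaurentSeries F :=
  if h : d = 0 then RingHom.id _ else @qExpand F _ d ⟨h⟩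

theorem rhoC_eq (d : ℕ) [NeZero d] : rhoC F d = qExpand F d := by
  unfold rhoC
  rw [dif_neg (NeZero.ne d)]

open Classical in
/-- `τ c : q ↦ c q` (the identity for `c = 0`). -/
def tauC (c : F) : LaurentSeries F →+* LaurentSeries F :=
  if h : c = 0 then RingHom.id _ else Kummer.twist (Units.mk0 c h)

open Classical in
theorem tauC_eq {c : F} (h : c ≠ 0) : tauC F c = Kummer.twist (Units.mk0 c h) := by
  unfold tauC
  rw [dif_neg h]

theorem tauC_units (u : Fˣ) : tauC F (u : F) = Kummer.twist u := by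
  rw [tauC_eq F u.ne_zero, Units.mk0_val]

/-- The concrete setup on `LaurentSeries F`. -/
def setupC : Setup F (LaurentSeries F) where
  ρ := rhoC F
  τ := tauC F
  J := jqModC F
  ρ_one := by
    apply RingHom.ext
    intro f
    rw [rhoC_eq F 1]
    exact qExpand_one_apply f
  ρ_mul := by
    intro a b ha hb
    have : NeZero a := ⟨ha.ne'⟩
    have : NeZero b := ⟨hb.ne'⟩
    apply RingHom.ext
    intro f
    rw [rhoC_eq F (a * b), RingHom.comp_apply, rhoC_eq F a, rhoC_eq F b, qExpand_qExpand]
  ρ_algebraMap := by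
    intro d c
    by_cases h : d = 0
    · subst h
      unfold rhoC
      rw [dif_pos rfl]
      rfl
    · have : NeZero d := ⟨h⟩
      rw [rhoC_eq F d, algebraMap_laurentSeries_eq_single, qExpand_single, mul_zero]
  τ_one := by
    apply RingHom.ext
    intro f
    have h : tauC F (1 : F) = Kummer.twist (1 : Fˣ) := tauC_units F 1
    rw [h, Kummer.twist_one]
    rfl
  τ_algebraMap := by
    intro c a
    by_cases h : c = 0
    · subst h
      unfold tauC
      rw [dif_pos rfl]
      rfl
    · rw [tauC_eq F h, algebraMap_laurentSeries_eq_single, Kummer.twist_single, zpow_zero,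
        Units.val_one, one_mul]
  τ_ρ := by
    intro c d y hc hd
    have : NeZero d := ⟨hd.ne'⟩
    have h1 : tauC F c = Kummer.twist (Units.mk0 c hc) := tauC_eq F hc
    have h2 : tauC F (c ^ d) = Kummer.twist (Units.mk0 c hc ^ d) := by
      have := tauC_units F (Units.mk0 c hc ^ d)
      rwa [Units.val_pow_eq_pow_val, Units.val_mk0] at this
    rw [h1, h2, rhoC_eq F d, Kummer.twist_qExpand]
  inj := by
    intro m m' c c' hm hm' hc hc' h
    have : NeZero m := ⟨hm.ne'⟩
    have : NeZero m' := ⟨hm'.ne'⟩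
    rw [rhoC_eq F m, rhoC_eq F m', tauC_eq F hc, tauC_eq F hc'] at h
    have h2 := Kummer.JJ_injective (c := Units.mk0 c hc) (c' := Units.mk0 c' hc') (m := m)
      (m' := m') h
    refine ⟨h2.1, ?_⟩
    have h3 := congrArg Units.val h2.2
    rwa [Units.val_mk0, Units.val_mk0] at h3

theorem setupC_J : (setupC F).J = jqModC F := rfl

theorem setupC_x (d : ℕ) [NeZero d] : (setupC F).x d = qExpand F d (jqModC F) := by
  show rhoC F d (jqModC F) = _
  rw [rhoC_eq F d]

theorem setupC_x_eq_Jd {d : ℕ} (hd : d ≠ 0) : (setupC F).x d = TD.Jd F d := by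
  have : NeZero d := ⟨hd⟩
  rw [setupC_x F d, TD.Jd_eq F d]

/-- The tower interface `TD.ModEq p` gives the root-list input. -/
def kummerData {p : ℕ} [NeZero p] (M : TD.ModEq p) : Kummer.ModEqData p where
  Φ := M.Φ
  monic := M.monic
  natDegree_eq := M.natDegree_eq
  rel₁ := by
    have h := M.rel₂
    rw [TD.Jd_one, TD.Jd_eq_jqNModC] at h
    exact (Kummer.eval_specialize _ _ _).symm.trans h
  rel₂ := by
    have h := M.rel₁
    rw [TD.Jd_one, TD.Jd_eq_jqNModC] at h
    exact (Kummer.eval_specialize _ _ _).symm.trans h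

/-- Root list of `Φ_p(X, J(q^p))` over a field with a primitive `p`-th root of unity. -/
def primeDataC {p : ℕ} (hp : p.Prime) (M : TD.ModEq p) {ζ : F} (hζ : IsPrimitiveRoot ζ p) :
    PrimeData (setupC F) p where
  Φ := M.Φ
  ζ := ζ
  hζ := hζ
  factor := by
    have : NeZero p := ⟨hp.ne_zero⟩
    have : NeZero (p * p) := ⟨Nat.mul_ne_zero hp.ne_zero hp.ne_zero⟩
    have hζ0 : ζ ≠ 0 := hζ.ne_zero hp.ne_zero
    have hu' : IsPrimitiveRoot (Units.mk0 ζ hζ0) p := by
      rw [← IsPrimitiveRoot.coe_units_iff, Units.val_mk0]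
      exact hζ
    have h := (kummerData M).specialize_eq_prod hp.one_lt hu' (1 : Fˣ) 1
    rw [Fintype.prod_option] at h
    have e1 : Kummer.JJ ((1 : Fˣ) ^ p) (1 * p) = (setupC F).ρ p (setupC F).J := by
      show _ = rhoC F p (jqModC F)
      rw [rhoC_eq F p, one_pow, Kummer.JJ, Kummer.twist_one]
      exact qExpand_congr (one_mul p) _
    have e2 : Kummer.rootFam (p := p) (Units.mk0 ζ hζ0) 1 1 none =
        (setupC F).ρ (p * p) (setupC F).J := by
      show Kummer.JJ (((1 : Fˣ) ^ p) ^ p) (1 * p * p) = rhoC F (p * p) (jqModC F)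
      rw [rhoC_eq F (p * p), one_pow, one_pow, Kummer.JJ, Kummer.twist_one]
      exact qExpand_congr (by ring) _
    have e3 : ∀ b : Fin p, Kummer.rootFam (p := p) (Units.mk0 ζ hζ0) 1 1 (some b) =
        (setupC F).τ (ζ ^ (b : ℕ)) (setupC F).J := by
      intro b
      show Kummer.JJ (Units.mk0 ζ hζ0 ^ (b : ℕ) * 1) 1 = tauC F (ζ ^ (b : ℕ)) (jqModC F)
      have h4 : ζ ^ (b : ℕ) = ((Units.mk0 ζ hζ0 ^ (b : ℕ) : Fˣ) : F) := by
        rw [Units.val_pow_eq_pow_val, Units.val_mk0]
      rw [h4, tauC_units, mul_one, Kummer.JJ, qExpand_one_apply]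
    rw [e1, e2] at h
    have h5 : ev M.Φ ((setupC F).ρ p (setupC F).J) =
        Kummer.specialize (kummerData M).Φ ((setupC F).ρ p (setupC F).J) := rfl
    rw [h5, h, Finset.prod_range (fun b => X - C ((setupC F).τ (ζ ^ b) (setupC F).J))]
    congr 1
    exact Finset.prod_congr rfl (fun b _ => by rw [e3 b])

theorem primeDataC_nonempty [IsAlgClosed F] {r : ℕ} (hr : r.Prime) (h1 : (r : F) ≠ 0)
    (h2 : Nonempty (TD.ModEq r)) : Nonempty (PrimeData (setupC F) r) := by
  obtain ⟨M⟩ := h2
  have : NeZero (r : F) := ⟨h1⟩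
  obtain ⟨ζ, hζ⟩ := HasEnoughRootsOfUnity.exists_primitiveRoot F r
  exact ⟨primeDataC F hr M hζ⟩

end Concrete

theorem mem_K_iff_mem_adjoin {k E : Type*} [Field k] [Field E] [Algebra k E] (s : Set E) (y : E) :
    y ∈ K k s ↔ y ∈ IntermediateField.adjoin k s := by
  rw [← IntermediateField.mem_toSubfield, IntermediateField.adjoin_toSubfield]
  rfl

/-- Root lists and base cases over an algebraically closed field. -/
theorem goodPrimesC (F : Type) [Field F] [IsAlgClosed F] (G : ℕ → Prop)
    (hG : ∀ r, r.Prime → G r → (r : F) ≠ 0 ∧ Nonempty (TD.ModEq r) ∧ TD.BaseCase r) :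
    Nonempty (GoodPrimes (setupC F) G) := by
  refine ⟨{ D := fun r hr hGr => Classical.choice
              (primeDataC_nonempty F hr (hG r hr hGr).1 (hG r hr hGr).2.1)
            base := fun r hr hGr => ?_ }⟩
  obtain ⟨h1, -, h3⟩ := hG r hr hGr
  have h4 := h3 F h1
  rw [mem_K_iff_mem_adjoin, setupC_x_eq_Jd F hr.ne_zero, setupC_J, ← TD.Jd_one]
  exact h4

/-- Pure algebra: split a root lying in the subfield off a monic polynomial. -/
theorem exists_monic_quot {E : Type*} [Field E] {L : Subfield E} {f : E[X]} (hf : CoeffIn L f)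
    (hm : f.Monic) {n : ℕ} (hn : f.natDegree = n + 1) {c w : E} (hc : c ∈ L)
    (hfc : f.eval c = 0) (hfw : f.eval w = 0) (hwc : w ≠ c) :
    ∃ g : E[X], CoeffIn L g ∧ g.Monic ∧ g.natDegree = n ∧ g.eval w = 0 := by
  have hdvd : (X - C c) * (f /ₘ (X - C c)) = f := Polynomial.mul_divByMonic_eq_iff_isRoot.mpr hfc
  set g := f /ₘ (X - C c) with hg
  have hgm : g.Monic := by
    have h1 : ((X - C c) * g).Monic := by rw [hdvd]; exact hm
    exact (Polynomial.monic_X_sub_C c).of_mul_monic_left h1
  refine ⟨g, ?_, hgm, ?_, ?_⟩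
  · have h1 : CoeffIn L ((X - C c) * g) := by rw [hdvd]; exact hf
    exact h1.of_mul (coeffIn_X_sub_C hc) (monic_X_sub_C c)
  · have h1 := congrArg natDegree hdvd
    rw [(monic_X_sub_C c).natDegree_mul hgm, natDegree_X_sub_C, hn] at h1
    omega
  · have h1 := congrArg (eval w) hdvd
    rw [eval_mul, hfw] at h1
    simp only [eval_sub, eval_X, eval_C] at h1
    exact (mul_eq_zero.mp h1).resolve_left (sub_ne_zero.mpr hwc)

theorem prime_pow_dvd_cases {N p r i : ℕ} (hN : 0 < N) (hp : p.Prime) (hr : r.Prime)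
    (hdvd : r ^ i ∣ N * p) : r ^ i ∣ N ∨ (r = p ∧ i = padicValNat p N + 1) := by
  by_cases h : r ^ i ∣ N
  · exact Or.inl h
  · right
    have hrp : r = p := by
      by_contra hne
      have hcop : Nat.Coprime (r ^ i) p :=
        Nat.Coprime.pow_left i ((Nat.coprime_primes hr hp).mpr hne)
      exact h (hcop.dvd_of_dvd_mul_right hdvd)
    subst hrp
    have := Fact.mk hp
    have h1 : i ≤ padicValNat r (N * r) :=
      (padicValNat_dvd_iff_le (Nat.mul_pos hN hp.pos).ne').mp hdvd
    have h2 : padicValNat r (N * r) = padicValNat r N + 1 := by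
      rw [padicValNat.mul hN.ne' hp.ne_zero, padicValNat_self]
    have h3 : padicValNat r N < i := by
      by_contra hle
      rw [not_lt] at hle
      exact h ((pow_dvd_pow r hle).trans pow_padicValNat_dvd)
    exact ⟨rfl, by omega⟩

section Export

variable {k : Type} [Field k] {N p : ℕ} [NeZero N] [NeZero p]

omit [NeZero p] in
theorem Jd_mem_full {d : ℕ} (hd : d ∣ N) : TD.Jd k d ∈ modularFunctionFieldFullC k N := by
  have hd0 : d ≠ 0 := fun h => NeZero.ne N (by rw [h] at hd; exact Nat.eq_zero_of_zero_dvd hd)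
  have : NeZero d := ⟨hd0⟩
  rw [TD.Jd_eq k d]
  exact jqModCd_mem_full k N hd

omit [NeZero N] [NeZero p] in
/-- Change of coefficients maps `k(J(q^d) : d ∣ N)` into the corresponding field over `F`. -/
theorem coeffMap_mem_U {F : Type*} [Field F] (φ : k →+* F) {y : LaurentSeries k}
    (hy : y ∈ modularFunctionFieldFullC k N) : coeffMap φ y ∈ (setupC F).U N := by
  have h : (modularFunctionFieldFullC k N).toSubfield ≤
      ((setupC F).U N).comap (coeffMap φ) := by
    rw [modularFunctionFieldFullC, IntermediateField.adjoin_toSubfield, Subfield.closure_le]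
    rintro z (⟨c, rfl⟩ | ⟨d, hd, hdN, rfl⟩)
    · show coeffMap φ (algebraMap k (LaurentSeries k) c) ∈ (setupC F).U N
      rw [algebraMap_laurentSeries_eq_single, coeffMap_single,
        ← algebraMap_laurentSeries_eq_single]
      exact (setupC F).algebraMap_mem_U N _
    · have := hd
      show coeffMap φ (qExpand k d (jqModC k)) ∈ (setupC F).U N
      rw [coeffMap_qExpand, coeffMap_jqModC, ← setupC_x F d]
      exact (setupC F).x_mem_U hdN
  exact h hy

omit [NeZero N] [NeZero p] in
theorem natCast_ne_zero_of_dvd (F : Type*) [Field F] [Algebra k F]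
    (hNk : ((N * p : ℕ) : k) ≠ 0) {r : ℕ} (hrd : r ∣ N * p) : (r : F) ≠ 0 := by
  intro h0
  have h1 : (r : k) = 0 := by
    apply (algebraMap k F).injective
    rw [map_natCast, map_zero]
    exact h0
  apply hNk
  obtain ⟨m, hm⟩ := hrd
  rw [hm, Nat.cast_mul, h1, zero_mul]

/-- **(DT)** lower bound for the degree of `J(q^(p^(a+1)))` over `k(J(q^d) : d ∣ N)`. -/
theorem chain_le_natDegree (hp : p.Prime) (hNk : ((N * p : ℕ) : k) ≠ 0)
    (hME : ∀ r : ℕ, r.Prime → r ∣ N * p → Nonempty (TD.ModEq r))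
    (hBC : ∀ r : ℕ, r.Prime → r ∣ N * p → TD.BaseCase r)
    (f : Polynomial ↥(modularFunctionFieldFullC k N)) (hf : f ≠ 0)
    (h0 : Polynomial.aeval (qExpand k (p ^ (padicValNat p N + 1)) (jqModC k)) f = 0) :
    (if p ∣ N then p else p + 1) ≤ f.natDegree := by
  have hN : 0 < N := Nat.pos_of_ne_zero (NeZero.ne N)
  obtain ⟨H⟩ := goodPrimesC (AlgebraicClosure k) (fun r => r ∣ N * p)
    (fun r hr hGr => ⟨natCast_ne_zero_of_dvd (AlgebraicClosure k) hNk hGr, hME r hr hGr,
      hBC r hr hGr⟩)
  have hdeg := H.natDegree_minpoly_step hN (fun r _ hrN => hrN.mul_right p) hp (dvd_mul_left p N)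
  rw [← hdeg]
  have hinj1 : Function.Injective
      (algebraMap ↥(modularFunctionFieldFullC k N) (LaurentSeries k)) :=
    (algebraMap ↥(modularFunctionFieldFullC k N) (LaurentSeries k)).injective
  have hinj2 : Function.Injective (coeffMap (algebraMap k (AlgebraicClosure k))) :=
    (coeffMap (algebraMap k (AlgebraicClosure k))).injective
  have hnat : ((f.map (algebraMap ↥(modularFunctionFieldFullC k N) (LaurentSeries k))).map
      (coeffMap (algebraMap k (AlgebraicClosure k)))).natDegree = f.natDegree := by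
    rw [natDegree_map_eq_of_injective hinj2, natDegree_map_eq_of_injective hinj1]
  have hne : (f.map (algebraMap ↥(modularFunctionFieldFullC k N) (LaurentSeries k))).map
      (coeffMap (algebraMap k (AlgebraicClosure k))) ≠ 0 := by
    rw [Ne, Polynomial.map_eq_zero_iff hinj2, Polynomial.map_eq_zero_iff hinj1]
    exact hf
  have hco : CoeffIn ((setupC (AlgebraicClosure k)).U N)
      ((f.map (algebraMap ↥(modularFunctionFieldFullC k N) (LaurentSeries k))).map
        (coeffMap (algebraMap k (AlgebraicClosure k)))) := by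
    intro n
    rw [coeff_map, coeff_map]
    exact coeffMap_mem_U _ (f.coeff n).2
  have hev : ((f.map (algebraMap ↥(modularFunctionFieldFullC k N) (LaurentSeries k))).map
      (coeffMap (algebraMap k (AlgebraicClosure k)))).eval
        ((setupC (AlgebraicClosure k)).x (p ^ (padicValNat p N + 1))) = 0 := by
    have hx : (setupC (AlgebraicClosure k)).x (p ^ (padicValNat p N + 1)) =
        coeffMap (algebraMap k (AlgebraicClosure k))
          (qExpand k (p ^ (padicValNat p N + 1)) (jqModC k)) := by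
      rw [setupC_x, coeffMap_qExpand, coeffMap_jqModC]
    rw [hx, eval_map, eval₂_at_apply, eval_map, ← aeval_def, h0, map_zero]
  have hdvd := minpoly_map_dvd hco hev
  have h5 := natDegree_le_of_dvd hdvd hne
  rwa [natDegree_map, hnat] at h5

set_option linter.unusedVariables false in
/-- **The step polynomial** over `k(J(q^d) : d ∣ N)`. -/
theorem chain_exists_monic (hp : p.Prime) (hNk : ((N * p : ℕ) : k) ≠ 0)
    (hME : ∀ r : ℕ, r.Prime → r ∣ N * p → Nonempty (TD.ModEq r)) :
    ∃ g : Polynomial ↥(modularFunctionFieldFullC k N), g.Monic ∧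
      g.natDegree = (if p ∣ N then p else p + 1) ∧
      Polynomial.aeval (qExpand k (p ^ (padicValNat p N + 1)) (jqModC k)) g = 0 := by
  obtain ⟨M⟩ := hME p hp (dvd_mul_left p N)
  have hN : 0 < N := Nat.pos_of_ne_zero (NeZero.ne N)
  have := Fact.mk hp
  suffices h : ∃ g : (LaurentSeries k)[X],
      CoeffIn (modularFunctionFieldFullC k N).toSubfield g ∧ g.Monic ∧
      g.natDegree = (if p ∣ N then p else p + 1) ∧
      g.eval (TD.Jd k (p ^ (padicValNat p N + 1))) = 0 by
    obtain ⟨g, h1, h2, h3, h4⟩ := h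
    have hlift : g ∈ Polynomial.lifts
        (algebraMap ↥(modularFunctionFieldFullC k N) (LaurentSeries k)) := by
      rw [Polynomial.lifts_iff_coeff_lifts]
      intro n
      exact ⟨⟨g.coeff n, h1 n⟩, rfl⟩
    obtain ⟨g', hg'⟩ := (Polynomial.mem_lifts g).mp hlift
    have hinj : Function.Injective
        (algebraMap ↥(modularFunctionFieldFullC k N) (LaurentSeries k)) :=
      (algebraMap ↥(modularFunctionFieldFullC k N) (LaurentSeries k)).injective
    refine ⟨g', ?_, ?_, ?_⟩
    · apply Polynomial.monic_of_injective hinj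
      rw [hg']
      exact h2
    · rw [← h3, ← hg', natDegree_map_eq_of_injective hinj]
    · rw [aeval_def, eval₂_eq_eval_map, hg', ← TD.Jd_eq k]
      exact h4
  by_cases hpN : p ∣ N
  · rw [if_pos hpN]
    obtain ⟨a', ha'⟩ : ∃ a', padicValNat p N = a' + 1 := by
      have : 1 ≤ padicValNat p N := one_le_padicValNat_of_dvd hN.ne' hpN
      exact ⟨padicValNat p N - 1, by omega⟩
    have hm0 : p ^ a' ≠ 0 := pow_ne_zero _ hp.ne_zero
    have hmp : p ^ a' * p ∣ N := by
      rw [← pow_succ, ← ha']
      exact pow_padicValNat_dvd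
    have hc : TD.Jd k (p ^ a') ∈ (modularFunctionFieldFullC k N).toSubfield :=
      Jd_mem_full ((dvd_mul_right _ p).trans hmp)
    have hy : TD.Jd k (p ^ a' * p) ∈ (modularFunctionFieldFullC k N).toSubfield :=
      Jd_mem_full hmp
    have hwc : TD.Jd k (p ^ a' * p * p) ≠ TD.Jd k (p ^ a') := by
      intro h
      have hm1 : p ^ a' * p * p ≠ 0 := Nat.mul_ne_zero (Nat.mul_ne_zero hm0 hp.ne_zero) hp.ne_zero
      rw [← setupC_x_eq_Jd k hm1, ← setupC_x_eq_Jd k hm0] at h
      have h2 : (setupC k).ρ (p ^ a' * p * p) ((setupC k).τ 1 (setupC k).J) =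
          (setupC k).ρ (p ^ a') ((setupC k).τ 1 (setupC k).J) := by
        rw [(setupC k).τ_one]
        exact h
      have h3 := ((setupC k).inj _ _ 1 1 (Nat.pos_of_ne_zero hm1) (Nat.pos_of_ne_zero hm0)
        one_ne_zero one_ne_zero h2).1
      have h4 : p ^ a' * (p * p) = p ^ a' * 1 := by rw [mul_one, ← mul_assoc]; exact h3
      have h5 := Nat.eq_of_mul_eq_mul_left (Nat.pos_of_ne_zero hm0) h4
      have h6 := hp.two_le
      nlinarith
    have hdeg : (TD.polyAt M.Φ (TD.Jd k (p ^ a' * p))).natDegree = p + 1 := by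
      rw [TD.polyAt_natDegree M.monic, M.natDegree_eq]
    obtain ⟨g, hg1, hg2, hg3, hg4⟩ := exists_monic_quot (L := (modularFunctionFieldFullC k N).toSubfield)
      (f := TD.polyAt M.Φ (TD.Jd k (p ^ a' * p))) (coeffIn_ev M.Φ hy)
      (TD.polyAt_monic M.monic _) hdeg hc (M.rel₁' hp.ne_zero k (p ^ a') hm0)
      (M.rel₂' hp.ne_zero k (p ^ a' * p) (Nat.mul_ne_zero hm0 hp.ne_zero)) hwc
    refine ⟨g, hg1, hg2, hg3, ?_⟩
    have h5 : p ^ (padicValNat p N + 1) = p ^ a' * p * p := by rw [ha']; ring
    rw [h5]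
    exact hg4
  · rw [if_neg hpN]
    have ha : padicValNat p N = 0 := padicValNat.eq_zero_of_not_dvd hpN
    have hy : TD.Jd k 1 ∈ (modularFunctionFieldFullC k N).toSubfield := Jd_mem_full (one_dvd N)
    refine ⟨TD.polyAt M.Φ (TD.Jd k 1), coeffIn_ev M.Φ hy, TD.polyAt_monic M.monic _, ?_, ?_⟩
    · rw [TD.polyAt_natDegree M.monic, M.natDegree_eq]
    · rw [ha, zero_add, pow_one]
      have h := M.rel₂' hp.ne_zero k 1 one_ne_zero
      rwa [one_mul] at h

/-- **Generation**: `k(J(q^d) : d ∣ N p) = k(J(q^d) : d ∣ N)(J(q^(p^(a+1))))`. -/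
theorem full_mul_prime_eq (hp : p.Prime) (hNk : ((N * p : ℕ) : k) ≠ 0)
    (hME : ∀ r : ℕ, r.Prime → r ∣ N * p → Nonempty (TD.ModEq r)) :
    modularFunctionFieldFullC k (N * p) = IntermediateField.adjoin k
      ((modularFunctionFieldFullC k N : Set (LaurentSeries k)) ∪
        {qExpand k (p ^ (padicValNat p N + 1)) (jqModC k)}) := by
  have hN : 0 < N := Nat.pos_of_ne_zero (NeZero.ne N)
  have := Fact.mk hp
  apply le_antisymm
  · rw [modularFunctionFieldFullC, IntermediateField.adjoin_le_iff]
    rintro z ⟨d, hd, hdN, rfl⟩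
    have := hd
    have D : ∀ r, r.Prime → r ∣ N * p → PrimeData (setupC (AlgebraicClosure k)) r :=
      fun r hr hrd => Classical.choice (primeDataC_nonempty (AlgebraicClosure k) hr
        (natCast_ne_zero_of_dvd (AlgebraicClosure k) hNk hrd) (hME r hr hrd))
    have key := x_mem_of_primePowers (setupC (AlgebraicClosure k)) (Nat.mul_pos hN hp.pos) D
      ((IntermediateField.adjoin k
        ((modularFunctionFieldFullC k N : Set (LaurentSeries k)) ∪
          {qExpand k (p ^ (padicValNat p N + 1)) (jqModC k)})).toSubfield.map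
        (coeffMap (algebraMap k (AlgebraicClosure k)))) ?_ ?_ d hdN
    · obtain ⟨z, hz, hzd⟩ := key
      have hz' : z = qExpand k d (jqModC k) :=
        (coeffMap (algebraMap k (AlgebraicClosure k))).injective
          (by rw [hzd, setupC_x _ d, coeffMap_qExpand, coeffMap_jqModC])
      rw [← hz']
      exact hz
    · refine ⟨jqModC k, ?_, coeffMap_jqModC _⟩
      exact IntermediateField.subset_adjoin k _ (Or.inl (jqModC_mem_full k N))
    · intro r i hr hi hdvd
      have : NeZero (r ^ i) := ⟨pow_ne_zero _ hr.ne_zero⟩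
      refine ⟨qExpand k (r ^ i) (jqModC k), ?_,
        by rw [setupC_x _ (r ^ i), coeffMap_qExpand, coeffMap_jqModC]⟩
      rcases prime_pow_dvd_cases hN hp hr hdvd with h | ⟨rfl, rfl⟩
      · exact IntermediateField.subset_adjoin k _ (Or.inl (jqModCd_mem_full k N h))
      · exact IntermediateField.subset_adjoin k _ (Or.inr rfl)
  · rw [IntermediateField.adjoin_le_iff]
    rintro z (hz | rfl)
    · exact full_degeneracyC_le k (dvd_mul_right N p) hz
    · exact jqModCd_mem_full k (N * p)
        (by rw [pow_succ]; exact Nat.mul_dvd_mul pow_padicValNat_dvd dvd_rfl)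

end Export

end

end Fermat.Agent.S28.ModEqField
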