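import Fermat.Agent.S28.ModEqField

/-!
# S28 / route C (shadow): the abstract degree theorem

In the abstract substitution setup of `ModEqField.lean` (`ρ d : q ↦ q ^ d`, `τ c : q ↦ c q`,
`x d = J(q^d)`), with modular-equation data (root lists) and the base case `x p ∉ k(J)` for all
primes involved, we prove for `U N := k(x d : d ∣ N)`:

* `Setup.U_mul_prime` : `U (N p) = U N (x (p^(a+1)))`, `a = v_p(N)`;
* `Setup.exists_monic_rel` : `x (p^(a+1))` is a root of a monic polynomial over `U N` of degree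
  `p` (`p ∣ N`) resp. `p + 1` (`p ∤ N`);
* `Setup.natDegree_minpoly_step` : this degree is exact.
-/

set_option autoImplicit false

namespace Fermat.Agent.S28.ModEqField

open Polynomial

section Degree

variable {k E : Type*} [Field k] [Field E] [Algebra k E]

namespace PrimeData

variable {S : Setup k E} {p : ℕ} (D : PrimeData S p)

theorem ev_monic_x (hp : 0 < p) {m : ℕ} (hm : 0 < m) : (ev D.Φ (S.x m)).Monic := by
  apply Polynomial.monic_of_injective (S.ρ_injective p)
  rw [ev_map, S.ρ_x hp hm, mul_comm]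
  exact D.ev_monic hp hm

theorem ev_natDegree_x (hp : 0 < p) {m : ℕ} (hm : 0 < m) :
    (ev D.Φ (S.x m)).natDegree = p + 1 := by
  rw [← Polynomial.natDegree_map (p := ev D.Φ (S.x m)) (S.ρ p), ev_map, S.ρ_x hp hm, mul_comm]
  exact D.ev_natDegree hp hm

end PrimeData

namespace Setup

variable (S : Setup k E)

/-- `U N = k(x d : d ∣ N)`. -/
noncomputable def U (N : ℕ) : Subfield E := K k {y | ∃ d, d ∣ N ∧ y = S.x d}

theorem x_mem_U {d N : ℕ} (h : d ∣ N) : S.x d ∈ S.U N := subset_K _ ⟨d, h, rfl⟩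

theorem J_mem_U (N : ℕ) : S.J ∈ S.U N := by
  rw [← S.x_one]; exact S.x_mem_U (one_dvd N)

theorem algebraMap_mem_U (N : ℕ) (c : k) : algebraMap k E c ∈ S.U N := algebraMap_mem_K _ c

theorem U_mono {M N : ℕ} (h : M ∣ N) : S.U M ≤ S.U N :=
  K_mono (by rintro _ ⟨d, hd, rfl⟩; exact ⟨d, hd.trans h, rfl⟩)

theorem U_le {N : ℕ} {L : Subfield E} (hk : ∀ c : k, algebraMap k E c ∈ L)
    (h : ∀ d, d ∣ N → S.x d ∈ L) : S.U N ≤ L :=
  K_le hk (by rintro _ ⟨d, hd, rfl⟩; exact h d hd)

theorem U_one : S.U 1 = K k {S.J} := by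
  unfold U
  congr 1
  ext y
  simp only [Nat.dvd_one, Set.mem_ofPred_eq, Set.mem_singleton_iff]
  constructor
  · rintro ⟨d, rfl, rfl⟩; exact S.x_one
  · rintro rfl; exact ⟨1, rfl, S.x_one.symm⟩

theorem map_ρ_U_le {N p : ℕ} (hN : 0 < N) (hp : 0 < p) :
    (S.U N).map (S.ρ p) ≤ S.U (N * p) := by
  unfold U
  rw [S.K_map_ρ]
  apply K_mono
  rintro _ ⟨_, ⟨d, hd, rfl⟩, rfl⟩
  refine ⟨d * p, Nat.mul_dvd_mul_right hd p, ?_⟩
  rw [S.ρ_x hp (Nat.pos_of_dvd_of_pos hd hN), mul_comm]

theorem map_ρ_mono {A B : Subfield E} (h : A ≤ B) (p : ℕ) : A.map (S.ρ p) ≤ B.map (S.ρ p) := by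
  rintro _ ⟨y, hy, rfl⟩
  exact ⟨y, h hy, rfl⟩

/-- `τ c` with `c ^ p = 1` fixes the image of `ρ p` pointwise. -/
theorem τ_map_ρ {c : k} {p : ℕ} (hc : c ≠ 0) (hp : 0 < p) (h : c ^ p = 1) (L : Subfield E) :
    ∀ a ∈ L.map (S.ρ p), S.τ c a = a := by
  rintro _ ⟨y, -, rfl⟩
  rw [S.τ_ρ c p y hc hp, h, S.τ_one]; rfl

/-- **Generation**: `U (N p) = U N (x (p^(a+1)))`. -/
theorem U_mul_prime {N p : ℕ} (hN : 0 < N) (hp : p.Prime)
    (D : ∀ r, r.Prime → r ∣ N * p → PrimeData S r) :
    S.U (N * p) = S.U N ⊔ Subfield.closure {S.x (p ^ (padicValNat p N + 1))} := by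
  have := Fact.mk hp
  apply le_antisymm
  · apply S.U_le
    · intro c; exact le_sup_left (α := Subfield E) (S.algebraMap_mem_U N c)
    · apply x_mem_of_primePowers S (Nat.mul_pos hN hp.pos) D
      · exact le_sup_left (α := Subfield E) (S.J_mem_U N)
      · intro r i hr hi hdvd
        by_cases h : r ^ i ∣ N
        · exact le_sup_left (α := Subfield E) (S.x_mem_U h)
        · have hrp : r = p := by
            by_contra hne
            have hcop : Nat.Coprime (r ^ i) p :=
              Nat.Coprime.pow_left i ((Nat.coprime_primes hr hp).mpr hne)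
            exact h (hcop.dvd_of_dvd_mul_right hdvd)
          subst hrp
          have h1 : i ≤ padicValNat r (N * r) :=
            (padicValNat_dvd_iff_le (Nat.mul_pos hN hp.pos).ne').mp hdvd
          have h2 : padicValNat r (N * r) = padicValNat r N + 1 := by
            rw [padicValNat.mul hN.ne' hp.ne_zero, padicValNat_self]
          have h3 : padicValNat r N < i := by
            by_contra hle
            rw [not_lt] at hle
            exact h ((pow_dvd_pow r hle).trans pow_padicValNat_dvd)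
          have h4 : i = padicValNat r N + 1 := by omega
          rw [h4]
          exact le_sup_right (α := Subfield E) (Subfield.subset_closure rfl)
  · refine sup_le (S.U_mono (dvd_mul_right N p)) ?_
    rw [Subfield.closure_le]
    rintro _ rfl
    apply S.x_mem_U
    rw [pow_succ]
    exact Nat.mul_dvd_mul pow_padicValNat_dvd dvd_rfl

/-- **The step polynomial**: `x (p^(a+1))` is a root of a monic polynomial over `U N` of degree
`p` if `p ∣ N`, `p + 1` otherwise. -/
theorem exists_monic_rel {N p : ℕ} (hN : 0 < N) (hp : p.Prime) (D : PrimeData S p) :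
    ∃ g : E[X], CoeffIn (S.U N) g ∧ g.Monic ∧ g.natDegree = (if p ∣ N then p else p + 1) ∧
      g.eval (S.x (p ^ (padicValNat p N + 1))) = 0 := by
  classical
  have := Fact.mk hp
  by_cases hpN : p ∣ N
  · rw [if_pos hpN]
    obtain ⟨a', ha'⟩ : ∃ a', padicValNat p N = a' + 1 := by
      have : 1 ≤ padicValNat p N := one_le_padicValNat_of_dvd hN.ne' hpN
      exact ⟨padicValNat p N - 1, by omega⟩
    set m := p ^ a' with hm
    have hm0 : 0 < m := pos_of_ne_zero (pow_ne_zero _ hp.ne_zero)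
    have hmp : m * p ∣ N := by
      rw [hm, ← pow_succ, ← ha']; exact pow_padicValNat_dvd
    have hxm : S.x m ∈ S.U N := S.x_mem_U ((dvd_mul_right m p).trans hmp)
    have hxmp : S.x (m * p) ∈ S.U N := S.x_mem_U hmp
    have hfac := D.factor_shift hp.pos hm0
    have hmem := D.x_mem_roots hp.pos m
    set g : E[X] :=
      (X - C (S.x (m * p * p))) * ∏ y ∈ (D.roots m).erase (S.x m), (X - C y) with hg
    have hfg : ev D.Φ (S.x (m * p)) = (X - C (S.x m)) * g := by
      rw [hfac, hg, ← Finset.mul_prod_erase _ _ hmem]; ring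
    refine ⟨g, ?_, ?_, ?_, ?_⟩
    · have h1 : CoeffIn (S.U N) ((X - C (S.x m)) * g) := by
        rw [← hfg]; exact coeffIn_ev _ hxmp
      exact h1.of_mul (coeffIn_X_sub_C hxm) (monic_X_sub_C _)
    · exact (monic_X_sub_C _).mul (monic_prod_X_sub_C _)
    · rw [hg, Monic.natDegree_mul (monic_X_sub_C _) (monic_prod_X_sub_C _), natDegree_X_sub_C,
        natDegree_prod_X_sub_C, Finset.card_erase_of_mem hmem, D.card_roots hp.pos hm0]
      have := hp.two_le
      omega
    · have h5 : p ^ (padicValNat p N + 1) = m * p * p := by rw [ha', hm]; ring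
      rw [h5, hg, eval_mul]; simp
  · rw [if_neg hpN]
    have ha : padicValNat p N = 0 := padicValNat.eq_zero_of_not_dvd hpN
    refine ⟨ev D.Φ (S.x 1), coeffIn_ev _ (S.x_mem_U (one_dvd N)), D.ev_monic_x hp.pos one_pos,
      D.ev_natDegree_x hp.pos one_pos, ?_⟩
    rw [ha, zero_add, pow_one]
    have := D.eval_up' hp.pos (m := 1) one_pos
    rwa [one_mul] at this

theorem U_prime_eq {p : ℕ} (hp : p.Prime) : S.U p = S.U 1 ⊔ Subfield.closure {S.x p} := by
  apply le_antisymm
  · apply S.U_le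
    · intro c; exact le_sup_left (α := Subfield E) (S.algebraMap_mem_U 1 c)
    · intro d hd
      rcases (Nat.dvd_prime hp).mp hd with rfl | rfl
      · exact le_sup_left (α := Subfield E) (S.x_mem_U dvd_rfl)
      · exact le_sup_right (α := Subfield E) (Subfield.subset_closure rfl)
  · refine sup_le (S.U_mono (one_dvd p)) ?_
    rw [Subfield.closure_le]
    rintro _ rfl
    exact S.x_mem_U dvd_rfl

theorem map_ρ_U_one (p : ℕ) : (S.U 1).map (S.ρ p) = K k {S.x p} := by
  rw [S.U_one, S.K_map_ρ, Set.image_singleton]; rfl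

theorem U_prime_eq' {p : ℕ} (hp : p.Prime) :
    S.U p = (S.U 1).map (S.ρ p) ⊔ Subfield.closure {S.J} := by
  rw [S.map_ρ_U_one]
  apply le_antisymm
  · apply S.U_le
    · intro c; exact le_sup_left (α := Subfield E) (algebraMap_mem_K _ c)
    · intro d hd
      rcases (Nat.dvd_prime hp).mp hd with rfl | rfl
      · rw [S.x_one]; exact le_sup_right (α := Subfield E) (Subfield.subset_closure rfl)
      · exact le_sup_left (α := Subfield E) (subset_K _ rfl)
  · refine sup_le (K_le (S.algebraMap_mem_U p) ?_) ?_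
    · rintro _ rfl; exact S.x_mem_U dvd_rfl
    · rw [Subfield.closure_le]; rintro _ rfl; exact S.J_mem_U p

/-- **Base degrees**: `[k(J, x p) : k(J)] = p + 1 = [k(J, x p) : k(x p)]`. -/
theorem base_degrees {p : ℕ} (hp : p.Prime) (D : PrimeData S p) (hB : S.x p ∉ K k {S.J}) :
    (S.U 1).relfinrank (S.U p) = p + 1 ∧
      ((S.U 1).map (S.ρ p)).relfinrank (S.U p) = p + 1 := by
  have hp0 := hp.pos
  set A := K k {S.x p} with hA
  have hf : CoeffIn A (ev D.Φ (S.x p)) := coeffIn_ev _ (subset_K _ rfl)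
  have hfac : ev D.Φ (S.x p) = (X - C (S.x (p * p))) * ∏ y ∈ D.roots 1, (X - C y) := by
    have := D.factor_shift hp0 one_pos
    rwa [one_mul] at this
  have hxR : S.J ∈ D.roots 1 := by
    have := D.x_mem_roots hp0 1
    rwa [S.x_one] at this
  have hR : ∀ y ∈ D.roots 1, ∃ T : E →+* E, (∀ a ∈ A, T a = a) ∧ T S.J = y := by
    intro y hy
    obtain ⟨b, hb, rfl⟩ := D.mem_roots.mp hy
    refine ⟨S.τ (D.ζ ^ b), fixes_K _ (S.τ_algebraMap _) ?_, ?_⟩
    · rintro _ rfl
      exact S.τ_x (D.ζ_pow_ne_zero hp0 b) hp0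
        (by rw [← pow_mul, mul_comm, pow_mul, D.hζ.pow_eq_one, one_pow])
    · rw [S.ρ_one]; rfl
  have hr : S.x (p * p) ∉ A := by
    intro h
    apply hB
    apply S.mem_K_of_ρ_mem (d := p)
    rw [Set.image_singleton, S.ρ_x hp0 hp0]
    exact h
  obtain ⟨h1, -, h3⟩ := natDegree_minpoly_eq_succ (D.roots 1) hf hfac hxR hR hr
  rw [D.card_roots hp0 one_pos] at h1 h3
  have hmonic : (ev D.Φ (S.x p)).Monic := by
    have := D.ev_monic hp0 one_pos
    rwa [one_mul] at this
  have hJint : IsIntegral ↥A S.J := isIntegral_of_coeffIn hf hmonic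
    (by rw [hfac, eval_mul, eval_prod_X_sub_C_of_mem _ hxR, mul_zero])
  have hrint : IsIntegral ↥A (S.x (p * p)) := isIntegral_of_coeffIn hf hmonic
    (by rw [hfac, eval_mul]; simp)
  constructor
  · rw [← Subfield.relfinrank_map_map _ _ (S.ρ p), S.U_prime_eq hp, Subfield.map_sup,
      RingHom.map_field_closure, Set.image_singleton, S.map_ρ_U_one, S.ρ_x hp0 hp0,
      relfinrank_sup_closure_singleton hrint, h3]
  · rw [S.U_prime_eq' hp, S.map_ρ_U_one, relfinrank_sup_closure_singleton hJint, h1]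

end Setup

/-- Modular-equation data and the base case for all primes satisfying `G`. -/
structure GoodPrimes (S : Setup k E) (G : ℕ → Prop) where
  /-- the root lists -/
  D : ∀ r, r.Prime → G r → PrimeData S r
  base : ∀ r, r.Prime → G r → S.x r ∉ K k {S.J}

namespace GoodPrimes

variable {S : Setup k E} {G : ℕ → Prop} (H : GoodPrimes S G)

include H

theorem good_mul {N p : ℕ} (hNG : ∀ r, r.Prime → r ∣ N → G r) (hp : p.Prime) (hGp : G p) :
    ∀ r, r.Prime → r ∣ N * p → G r := by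
  intro r hr hrd
  rcases (Nat.Prime.dvd_mul hr).mp hrd with h | h
  · exact hNG r hr h
  · rw [(Nat.prime_dvd_prime_iff_eq hr hp).mp h]; exact hGp

/-- The step degree is the degree of the minimal polynomial of `x (p^(a+1))`. -/
theorem step_eq {N p : ℕ} (hN : 0 < N) (hNG : ∀ r, r.Prime → r ∣ N → G r) (hp : p.Prime)
    (hGp : G p) :
    IsIntegral ↥(S.U N) (S.x (p ^ (padicValNat p N + 1))) ∧
    (S.U N).relfinrank (S.U (N * p)) =
      (minpoly ↥(S.U N) (S.x (p ^ (padicValNat p N + 1)))).natDegree ∧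
    (S.U N).relfinrank (S.U (N * p)) ≤ (if p ∣ N then p else p + 1) := by
  obtain ⟨g, hg1, hg2, hg3, hg4⟩ := S.exists_monic_rel hN hp (H.D p hp hGp)
  have hint := isIntegral_of_coeffIn hg1 hg2 hg4
  have hgen := S.U_mul_prime hN hp (fun r hr hrd => H.D r hr (H.good_mul hNG hp hGp r hr hrd))
  have heq : (S.U N).relfinrank (S.U (N * p)) =
      (minpoly ↥(S.U N) (S.x (p ^ (padicValNat p N + 1)))).natDegree := by
    rw [hgen, relfinrank_sup_closure_singleton hint]
  refine ⟨hint, heq, ?_⟩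
  rw [heq, ← hg3]
  exact natDegree_minpoly_le hg1 hg2 hg4

theorem step_pos {N p : ℕ} (hN : 0 < N) (hNG : ∀ r, r.Prime → r ∣ N → G r) (hp : p.Prime)
    (hGp : G p) : 0 < (S.U N).relfinrank (S.U (N * p)) := by
  obtain ⟨h1, h2, -⟩ := H.step_eq hN hNG hp hGp
  rw [h2]
  exact minpoly.natDegree_pos h1

/-- (S): the step degree can be computed over `ρ_p (U N)`. -/
theorem step_S {N p : ℕ} (hN : 0 < N) (hp : p.Prime) (hGp : G p)
    (hfin : (S.U 1).relfinrank (S.U N) ≠ 0) :
    (S.U N).relfinrank (S.U (N * p)) = ((S.U N).map (S.ρ p)).relfinrank (S.U (N * p)) := by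
  have hle1 : S.U 1 ≤ S.U N := S.U_mono (one_dvd N)
  have hle2 : S.U N ≤ S.U (N * p) := S.U_mono (dvd_mul_right N p)
  have hle3 : S.U 1 ≤ S.U p := S.U_mono (one_dvd p)
  have hle4 : S.U p ≤ S.U (N * p) := S.U_mono (dvd_mul_left p N)
  have hle5 : (S.U 1).map (S.ρ p) ≤ S.U p := by
    rw [S.U_prime_eq' hp]; exact le_sup_left
  have hle6 : (S.U 1).map (S.ρ p) ≤ (S.U N).map (S.ρ p) := S.map_ρ_mono hle1 p
  have hle7 : (S.U N).map (S.ρ p) ≤ S.U (N * p) := S.map_ρ_U_le hN hp.pos
  have t1 := Subfield.relfinrank_mul_relfinrank hle1 hle2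
  have t2 := Subfield.relfinrank_mul_relfinrank hle3 hle4
  have t3 := Subfield.relfinrank_mul_relfinrank hle5 hle4
  have t4 := Subfield.relfinrank_mul_relfinrank hle6 hle7
  have t5 := Subfield.relfinrank_map_map (S.U 1) (S.U N) (S.ρ p)
  obtain ⟨b1, b2⟩ := S.base_degrees hp (H.D p hp hGp) (H.base p hp hGp)
  rw [b1] at t2
  rw [b2] at t3
  rw [t5] at t4
  have h : (S.U 1).relfinrank (S.U N) * (S.U N).relfinrank (S.U (N * p)) =
      (S.U 1).relfinrank (S.U N) * ((S.U N).map (S.ρ p)).relfinrank (S.U (N * p)) := by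
    rw [t1, t4, ← t2, ← t3]
  exact Nat.eq_of_mul_eq_mul_left (Nat.pos_of_ne_zero hfin) h

/-- (L): the `τ`-orbit of `J` gives the lower bound `p`. -/
theorem step_L {N p : ℕ} (hN : 0 < N) (hp : p.Prime) (hGp : G p)
    (hne : ((S.U N).map (S.ρ p)).relfinrank (S.U (N * p)) ≠ 0) :
    p ≤ ((S.U N).map (S.ρ p)).relfinrank (S.U (N * p)) := by
  have hp0 := hp.pos
  set D := H.D p hp hGp with hD
  set A := (S.U N).map (S.ρ p) with hA
  have hxp : S.x p ∈ A := by
    refine ⟨S.x 1, S.x_mem_U (one_dvd N), ?_⟩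
    rw [S.ρ_x hp0 one_pos, mul_one]
  have hf : CoeffIn A (ev D.Φ (S.x p)) := coeffIn_ev _ hxp
  have hfac : ev D.Φ (S.x p) = (X - C (S.x (p * p))) * ∏ y ∈ D.roots 1, (X - C y) := by
    have := D.factor_shift hp0 one_pos
    rwa [one_mul] at this
  have hxR : S.J ∈ D.roots 1 := by
    have := D.x_mem_roots hp0 1
    rwa [S.x_one] at this
  have hmonic : (ev D.Φ (S.x p)).Monic := by
    have := D.ev_monic hp0 one_pos
    rwa [one_mul] at this
  have hJint : IsIntegral ↥A S.J := isIntegral_of_coeffIn hf hmonic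
    (by rw [hfac, eval_mul, eval_prod_X_sub_C_of_mem _ hxR, mul_zero])
  have hR : ∀ y ∈ D.roots 1, ∃ T : E →+* E, (∀ a ∈ A, T a = a) ∧ T S.J = y := by
    intro y hy
    obtain ⟨b, hb, rfl⟩ := D.mem_roots.mp hy
    refine ⟨S.τ (D.ζ ^ b), S.τ_map_ρ (D.ζ_pow_ne_zero hp0 b) hp0
      (by rw [← pow_mul, mul_comm, pow_mul, D.hζ.pow_eq_one, one_pow]) _, ?_⟩
    rw [S.ρ_one]; rfl
  have hdeg := card_le_natDegree_minpoly hJint (D.roots 1) hR
  rw [D.card_roots hp0 one_pos] at hdeg
  have hmid : A ⊔ Subfield.closure {S.J} ≤ S.U (N * p) := by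
    refine sup_le (S.map_ρ_U_le hN hp0) ?_
    rw [Subfield.closure_le]; rintro _ rfl; exact S.J_mem_U _
  have t := Subfield.relfinrank_mul_relfinrank (le_sup_left : A ≤ A ⊔ Subfield.closure {S.J}) hmid
  rw [relfinrank_sup_closure_singleton hJint] at t
  refine le_trans hdeg (Nat.le_of_dvd (Nat.pos_of_ne_zero hne) ⟨_, t.symm⟩)

theorem step_bounds {N p : ℕ} (hN : 0 < N) (hNG : ∀ r, r.Prime → r ∣ N → G r) (hp : p.Prime)
    (hGp : G p) (hfin : (S.U 1).relfinrank (S.U N) ≠ 0) :
    p ≤ (S.U N).relfinrank (S.U (N * p)) ∧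
      (S.U N).relfinrank (S.U (N * p)) ≤ (if p ∣ N then p else p + 1) := by
  refine ⟨?_, (H.step_eq hN hNG hp hGp).2.2⟩
  have h1 := H.step_S hN hp hGp hfin
  have h2 := H.step_pos hN hNG hp hGp
  rw [h1]
  apply H.step_L hN hp hGp
  rw [← h1]
  exact h2.ne'

theorem step_old {N p : ℕ} (hN : 0 < N) (hNG : ∀ r, r.Prime → r ∣ N → G r) (hp : p.Prime)
    (hGp : G p) (hfin : (S.U 1).relfinrank (S.U N) ≠ 0) (hpN : p ∣ N) :
    (S.U N).relfinrank (S.U (N * p)) = p := by
  obtain ⟨h1, h2⟩ := H.step_bounds hN hNG hp hGp hfin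
  rw [if_pos hpN] at h2
  exact le_antisymm h2 h1

theorem fin_mul {N p : ℕ} (hN : 0 < N) (hNG : ∀ r, r.Prime → r ∣ N → G r) (hp : p.Prime)
    (hGp : G p) (hfin : (S.U 1).relfinrank (S.U N) ≠ 0) :
    (S.U 1).relfinrank (S.U (N * p)) ≠ 0 := by
  rw [← Subfield.relfinrank_mul_relfinrank (S.U_mono (one_dvd N)) (S.U_mono (dvd_mul_right N p))]
  exact Nat.mul_ne_zero hfin (H.step_pos hN hNG hp hGp).ne'

/-- **Main induction**: finiteness, and the step degree `p + 1` for a new prime. -/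
theorem main : ∀ N : ℕ, 0 < N → (∀ r, r.Prime → r ∣ N → G r) →
    (S.U 1).relfinrank (S.U N) ≠ 0 ∧
      ∀ p, p.Prime → G p → ¬ p ∣ N → (S.U N).relfinrank (S.U (N * p)) = p + 1 := by
  intro N
  induction N using Nat.strong_induction_on with
  | _ N ih =>
    intro hN hNG
    rcases eq_or_ne N 1 with rfl | hN1
    · refine ⟨by rw [Subfield.relfinrank_self]; exact one_ne_zero, ?_⟩
      intro p hp hGp _
      rw [one_mul]
      exact (S.base_degrees hp (H.D p hp hGp) (H.base p hp hGp)).1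
    obtain ⟨r, hr, M, rfl⟩ : ∃ r, r.Prime ∧ ∃ M, N = M * r :=
      ⟨N.minFac, Nat.minFac_prime hN1, N / N.minFac,
        (Nat.div_mul_cancel (Nat.minFac_dvd N)).symm⟩
    have hM : 0 < M := Nat.pos_of_mul_pos_right hN
    have hMlt : M < M * r := by
      have := hr.two_le
      nlinarith
    have hMG : ∀ q, q.Prime → q ∣ M → G q := fun q hq hqM => hNG q hq (hqM.mul_right r)
    have hGr : G r := hNG r hr (dvd_mul_left r M)
    obtain ⟨hfinM, hnewM⟩ := ih M hMlt hM hMG
    have hfin : (S.U 1).relfinrank (S.U (M * r)) ≠ 0 := H.fin_mul hM hMG hr hGr hfinM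
    refine ⟨hfin, ?_⟩
    intro p hp hGp hpN
    have hrp : r ≠ p := by
      rintro rfl; exact hpN (dvd_mul_left r M)
    have hpM : ¬ p ∣ M := fun h => hpN (h.mul_right r)
    have e1 : (S.U M).relfinrank (S.U (M * p)) = p + 1 := hnewM p hp hGp hpM
    have hMpG : ∀ q, q.Prime → q ∣ M * p → G q := H.good_mul hMG hp hGp
    have hfinMp : (S.U 1).relfinrank (S.U (M * p)) ≠ 0 := H.fin_mul hM hMG hp hGp hfinM
    have t1 := Subfield.relfinrank_mul_relfinrank (S.U_mono (dvd_mul_right M r))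
      (S.U_mono (dvd_mul_right (M * r) p))
    have t2 : (S.U M).relfinrank (S.U (M * p)) * (S.U (M * p)).relfinrank (S.U (M * p * r)) =
        (S.U M).relfinrank (S.U (M * r * p)) := by
      have e : M * r * p = M * p * r := by ring
      rw [e]
      exact Subfield.relfinrank_mul_relfinrank (S.U_mono (dvd_mul_right M p))
        (S.U_mono (dvd_mul_right (M * p) r))
    rw [e1] at t2
    obtain ⟨bN1, bN2⟩ := H.step_bounds (Nat.mul_pos hM hr.pos) hNG hp hGp hfin
    rw [if_neg hpN] at bN2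
    by_cases hrM : r ∣ M
    · have e2 : (S.U M).relfinrank (S.U (M * r)) = r := H.step_old hM hMG hr hGr hfinM hrM
      have e3 : (S.U (M * p)).relfinrank (S.U (M * p * r)) = r :=
        H.step_old (Nat.mul_pos hM hp.pos) hMpG hr hGr hfinMp (hrM.mul_right p)
      rw [e2] at t1
      rw [e3] at t2
      have h5 : r * (S.U (M * r)).relfinrank (S.U (M * r * p)) = r * (p + 1) := by
        rw [t1, ← t2, mul_comm]
      exact Nat.eq_of_mul_eq_mul_left hr.pos h5
    · have e2 : (S.U M).relfinrank (S.U (M * r)) = r + 1 := hnewM r hr hGr hrM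
      have hrMp : ¬ r ∣ M * p := by
        intro h
        rcases (Nat.Prime.dvd_mul hr).mp h with h | h
        · exact hrM h
        · exact hrp ((Nat.prime_dvd_prime_iff_eq hr hp).mp h)
      obtain ⟨b1, b2⟩ := H.step_bounds (Nat.mul_pos hM hp.pos) hMpG hr hGr hfinMp
      rw [if_neg hrMp] at b2
      rw [e2] at t1
      set X := (S.U (M * r)).relfinrank (S.U (M * r * p)) with hX
      set Y := (S.U (M * p)).relfinrank (S.U (M * p * r)) with hY
      have h5 : (r + 1) * X = (p + 1) * Y := by rw [t1, t2]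
      rcases Nat.lt_or_ge X (p + 1) with hlt | hge
      · exfalso
        have hXp : X = p := by omega
        rw [hXp] at h5
        rcases Nat.lt_or_ge Y (r + 1) with hlt' | hge'
        · have hYr : Y = r := by omega
          rw [hYr] at h5
          apply hrp
          nlinarith
        · have hYr : Y = r + 1 := by omega
          rw [hYr] at h5
          nlinarith
      · omega

/-- **The degree theorem (abstract form)**: the exact degree of `x (p^(a+1))` over `U N`. -/
theorem natDegree_minpoly_step {N p : ℕ} (hN : 0 < N) (hNG : ∀ r, r.Prime → r ∣ N → G r)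
    (hp : p.Prime) (hGp : G p) :
    (minpoly ↥(S.U N) (S.x (p ^ (padicValNat p N + 1)))).natDegree =
      if p ∣ N then p else p + 1 := by
  obtain ⟨hfin, hnew⟩ := H.main N hN hNG
  rw [← (H.step_eq hN hNG hp hGp).2.1]
  by_cases hpN : p ∣ N
  · rw [if_pos hpN]; exact H.step_old hN hNG hp hGp hfin hpN
  · rw [if_neg hpN]; exact hnew p hp hGp hpN

end GoodPrimes

end Degree

end Fermat.Agent.S28.ModEqField
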